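import Fermat.Agent.S30.H709.ParEigen
import Fermat.Agent.S21.Glue
import Fermat.Agent.S41.Spec.HK

/-!
# S59 / cell NM, leaf ETAB, sub-Prop (1) FACTOR (helper126)

A cuspidal class `x : Γ₀(N) → A` with values in a torsion-free abelian group factors through the
period lattice `perLattice N` (helper709, `S30/H709/PeriodLattice.lean`):

  `exists_factor_perLattice : ∃ u : perLattice N →+ A, ∀ γ, u (perCls N γ) = x γ`.

Proof: the image of `x` is a finitely generated free abelian group, so it is enough to treat
`A = ℤ`; an integer-valued parabolic homomorphism is the real part of the period map of a cusp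
form (`S21.exists_re_periodMap_eq`), hence vanishes on the kernel of `γ ↦ perCls N γ`.
-/

set_option autoImplicit false
set_option linter.unusedSectionVars false
set_option linter.style.haveILetI false

noncomputable section

namespace Fermat.Agent.S59.NM.H126

open CongruenceSubgroup ModularCurve ModularCurve.Period
open Fermat.Agent.S30.H709
open scoped MatrixGroups

variable {N : ℕ} [NeZero N]

/-- `γ ↦ perCls N γ` as an additive homomorphism. -/
def perClsHom (N : ℕ) [NeZero N] : Additive (Gamma0 N) →+ perLattice N where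
  toFun γ := perCls N (Additive.toMul γ)
  map_zero' := perCls_one
  map_add' a b := perCls_mul (Additive.toMul a) (Additive.toMul b)

@[simp] theorem perClsHom_apply (γ : Gamma0 N) :
    perClsHom N (Additive.ofMul γ) = perCls N γ := rfl

theorem perClsHom_surjective : Function.Surjective (perClsHom N) := by
  intro x
  induction x using perCls_induction with
  | h0 => exact ⟨0, map_zero _⟩
  | hadd x y hx hy =>
    obtain ⟨a, rfl⟩ := hx
    obtain ⟨b, rfl⟩ := hy
    exact ⟨a + b, map_add _ _ _⟩
  | hneg x hx =>
    obtain ⟨a, rfl⟩ := hx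
    exact ⟨-a, map_neg _ _⟩
  | hcls γ => exact ⟨Additive.ofMul γ, rfl⟩

/-- All periods along `γ` vanish if `perCls N γ = 0`. -/
theorem periodMap_eq_zero_of_perCls {γ : Gamma0 N} (hγ : perCls N γ = 0)
    (f : CuspForm (Gamma0 N) 2) : periodMap N f (Additive.ofMul γ) = 0 := by
  have h := congrArg (fun l : perLattice N =>
    (l : Module.Dual ℂ (CuspForm (Gamma0 N) 2)) f) hγ
  exact h

/-- Real-valued parabolic homomorphisms vanish on the kernel of `perCls`. -/
theorem real_apply_eq_zero_of_perCls (φ : Additive (Gamma0 N) →+ ℝ)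
    (hφ : IsParabolicHom (Gamma0 N) φ) {γ : Gamma0 N} (hγ : perCls N γ = 0) :
    φ (Additive.ofMul γ) = 0 := by
  obtain ⟨f, hf⟩ := Fermat.Agent.S21.exists_re_periodMap_eq φ hφ
  rw [← hf γ, periodMap_eq_zero_of_perCls hγ f, Complex.zero_re]

/-- Integer-valued parabolic homomorphisms vanish on the kernel of `perCls`. -/
theorem int_apply_eq_zero_of_perCls (y : Additive (Gamma0 N) →+ ℤ)
    (hy : IsParabolicHom (Gamma0 N) y) {γ : Gamma0 N} (hγ : perCls N γ = 0) :
    y (Additive.ofMul γ) = 0 := by
  have h := real_apply_eq_zero_of_perCls ((Int.castAddHom ℝ).comp y)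
    (fun δ hδ => by
      show ((y (Additive.ofMul δ) : ℤ) : ℝ) = 0
      rw [hy δ hδ, Int.cast_zero]) hγ
  have h' : ((y (Additive.ofMul γ) : ℤ) : ℝ) = 0 := h
  exact_mod_cast h'

/-- Parabolic homomorphisms with values in a torsion-free abelian group vanish on the kernel of
`perCls`. -/
theorem apply_eq_zero_of_perCls {A : Type*} [AddCommGroup A] [IsAddTorsionFree A]
    (x : Additive (Gamma0 N) →+ A) (hx : IsParabolicHom (Gamma0 N) x) {γ : Gamma0 N}
    (hγ : perCls N γ = 0) : x (Additive.ofMul γ) = 0 := by
  classical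
  haveI : Group.FG (Gamma0 N) := fg_Gamma0 N
  haveI : AddGroup.FG (Additive (Gamma0 N)) := GroupFG.iff_add_fg.mp inferInstance
  haveI : AddGroup.FG x.range := AddGroup.fg_range x
  haveI : Module.Finite ℤ x.range := Module.Finite.iff_addGroup_fg.mpr inferInstance
  haveI : Module.Free ℤ x.range := Module.free_of_finite_type_torsion_free'
  let b := Module.Free.chooseBasis ℤ x.range
  let x' : Additive (Gamma0 N) →+ x.range := x.rangeRestrict
  have hx' : ∀ δ : Gamma0 N, x (Additive.ofMul δ) = 0 → x' (Additive.ofMul δ) = 0 := by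
    intro δ hδ
    apply Subtype.ext
    exact hδ
  have hcoord : ∀ i, b.coord i (x' (Additive.ofMul γ)) = 0 := by
    intro i
    have := int_apply_eq_zero_of_perCls ((b.coord i).toAddMonoidHom.comp x')
      (fun δ hδ => by
        show b.coord i (x' (Additive.ofMul δ)) = 0
        rw [hx' δ (hx δ hδ), map_zero]) hγ
    exact this
  have h0 : x' (Additive.ofMul γ) = 0 := by
    apply b.ext_elem
    intro i
    rw [map_zero, Finsupp.coe_zero, Pi.zero_apply]
    exact hcoord i
  exact congrArg Subtype.val h0

/-- **FACTOR.**  A parabolic homomorphism `Γ₀(N) → A`, `A` torsion-free, factors through the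
period lattice. -/
theorem exists_factor_perLattice_of_parabolic {A : Type*} [AddCommGroup A] [IsAddTorsionFree A]
    (x : Additive (Gamma0 N) →+ A) (hx : IsParabolicHom (Gamma0 N) x) :
    ∃ u : perLattice N →+ A, ∀ γ : Gamma0 N, u (perCls N γ) = x (Additive.ofMul γ) := by
  have hker : (perClsHom N).ker ≤ x.ker := by
    intro a ha
    obtain ⟨γ, rfl⟩ := Additive.ofMul.surjective a
    rw [AddMonoidHom.mem_ker] at ha ⊢
    exact apply_eq_zero_of_perCls x hx ha
  refine ⟨AddMonoidHom.liftOfRightInverse (perClsHom N) (Function.surjInv perClsHom_surjective)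
    (Function.rightInverse_surjInv perClsHom_surjective) ⟨x, hker⟩, fun γ => ?_⟩
  rw [← perClsHom_apply]
  exact AddMonoidHom.liftOfRightInverse_comp_apply _ _ _ ⟨x, hker⟩ _

/-- **FACTOR** for cuspidal classes (the shape used by ETAB). -/
theorem exists_factor_perLattice {A : Type*} [AddCommGroup A] [IsAddTorsionFree A]
    (x : Additive (Gamma0 N) →+ A) (hx : Fermat.Agent.S41.Spec.IsCuspidal x) :
    ∃ u : perLattice N →+ A, ∀ γ : Gamma0 N, u (perCls N γ) = x (Additive.ofMul γ) :=
  exists_factor_perLattice_of_parabolic x hx.1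

/-- A homomorphism on the period lattice is determined by its values on the classes. -/
theorem hom_ext_perCls {A : Type*} [AddCommGroup A] {u v : perLattice N →+ A}
    (h : ∀ γ : Gamma0 N, u (perCls N γ) = v (perCls N γ)) : u = v := by
  refine AddMonoidHom.ext fun l => ?_
  obtain ⟨a, rfl⟩ := perClsHom_surjective l
  obtain ⟨γ, rfl⟩ := Additive.ofMul.surjective a
  exact h γ

/-- Conversely `u ∘ perCls` is cuspidal for every `u : perLattice N →+ A`. -/
theorem isCuspidal_comp_perCls {A : Type*} [AddCommGroup A] (u : perLattice N →+ A) :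
    Fermat.Agent.S41.Spec.IsCuspidal (u.comp (perClsHom N)) := by
  refine ⟨fun γ hγ => ?_, fun γ hγ => ?_⟩
  · show u (perCls N γ) = 0
    rw [perCls_eq_zero_of_trace γ hγ, map_zero]
  · show u (perCls N γ) = 0
    obtain ⟨n, hn, hpow⟩ := isOfFinOrder_iff_pow_eq_one.mp hγ
    rw [perCls_eq_zero_of_pow hn hpow, map_zero]

end Fermat.Agent.S59.NM.H126
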